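import Fermat.Agent.Lib.Frob.Interfaces
import Fermat.Agent.Lib.Frob.A1.H290.Main

/-!
# Shared library `Frob`, piece A1: the deliverable `reductionData : ReductionData`

Proof: `Fermat/Agent/Lib/Frob/A1/H290/Main.lean` (helper290), an instance of the general reduction
homomorphism `Fermat.Agent.Lib.Red.H290.redHom` with `k` the residue field of `A`.
-/

set_option autoImplicit false

namespace Fermat.Agent.Lib.Frob

/-- **A1**: reduction of prime-to-`ℓ` torsion at a valuation subring of `ℚ̄` over a good prime. -/
theorem reductionData : ReductionData := A1.H290.reductionData

end Fermat.Agent.Lib.Frob
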